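import Fermat.Agent.WOneB.Field

set_option autoImplicit false
set_option linter.unusedSectionVars false

/-!
# The arithmetic of eigenforms of weight one
-/

open CongruenceSubgroup ModularForm UpperHalfPlane Matrix.SpecialLinearGroup ModularFormClass
open NumberField
open scoped MatrixGroups ModularForm Manifold OnePoint Topology
open Fermat.Agent.IntStr Fermat.Agent.WOne

namespace Fermat.Agent.WOneB

noncomputable section

variable {N : ℕ} [NeZero N]

/-- The number field, the integral eigenvalues, the conjugate forms, and an eigenform with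
coefficients in the number field, attached to an eigenform of weight one. -/
theorem exists_data (ε : DirichletCharacter ℂ N) (f : CuspForm (Gamma1 N) 1)
    (hf₁ : qCoeff f 1 = 1)
    (hT : ∀ p : ℕ, p.Prime → ¬ p ∣ N → ∀ n : ℕ,
      qCoeff f (p * n) + ε (p : ZMod N) * (if p ∣ n then qCoeff f (n / p) else 0) =
        qCoeff f p * qCoeff f n) :
    ∃ (K : Type) (_ : Field K) (_ : NumberField K) (ι : K →+* ℂ) (a e : ℕ → 𝓞 K),
      (∀ p : ℕ, p.Prime → ¬ p ∣ N → ι (a p : K) = qCoeff f p ∧ ι (e p : K) = ε (p : ZMod N)) ∧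
      (∀ τ : K →+* ℂ, ∃ (ε' : DirichletCharacter ℂ N) (f' : CuspForm (Gamma1 N) 1),
        qCoeff f' 1 = 1 ∧
        (∀ p : ℕ, p.Prime → ¬ p ∣ N → ∀ n : ℕ,
          qCoeff f' (p * n) + ε' (p : ZMod N) * (if p ∣ n then qCoeff f' (n / p) else 0) =
            qCoeff f' p * qCoeff f' n) ∧
        ∀ p : ℕ, p.Prime → ¬ p ∣ N → qCoeff f' p = τ (a p : K)) ∧
      (∀ n : ℕ, ι (e n : K) = ε (n : ZMod N)) ∧
      ∃ (f₁ : CuspForm (Gamma1 N) 1) (D : ℕ) (b : ℕ → 𝓞 K), D ≠ 0 ∧ qCoeff f₁ 1 = 1 ∧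
        (∀ p : ℕ, p.Prime → ¬ p ∣ N → ∀ n : ℕ,
          qCoeff f₁ (p * n) + ε (p : ZMod N) * (if p ∣ n then qCoeff f₁ (n / p) else 0) =
            qCoeff f₁ p * qCoeff f₁ n) ∧
        (∀ p : ℕ, p.Prime → ¬ p ∣ N → qCoeff f₁ p = ι (a p : K)) ∧
        ∀ n : ℕ, ι (b n : K) = D * qCoeff f₁ n := by
  classical
  have hN : 3 ≤ N := three_le f hf₁
  obtain ⟨K, hK, hmem⟩ := exists_field hN f hf₁
  have hval : ∀ c ∈ eigA f, ∃ x : 𝓞 K, (algebraMap K ℂ (x : K)) = c := by
    intro c hc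
    obtain ⟨h1, h2⟩ := hmem c hc
    have h3 : IsIntegral ℤ (⟨c, h1⟩ : K) := by
      have h4 : IsIntegral ℤ (algebraMap K ℂ ⟨c, h1⟩) := h2
      exact (isIntegral_algebraMap_iff (algebraMap K ℂ).injective).mp h4
    exact ⟨⟨⟨c, h1⟩, h3⟩, rfl⟩
  have ha' : ∀ p : ℕ, ∃ x : 𝓞 K, p.Prime → ¬ p ∣ N → algebraMap K ℂ (x : K) = qCoeff f p := by
    intro p
    by_cases hp : p.Prime ∧ ¬ p ∣ N
    · obtain ⟨x, hx⟩ := hval _ (mem_eigA_a ε f hT hp.1 hp.2)
      exact ⟨x, fun _ _ => hx⟩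
    · exact ⟨0, fun h1 h2 => absurd ⟨h1, h2⟩ hp⟩
  have he' : ∀ n : ℕ, ∃ x : 𝓞 K, algebraMap K ℂ (x : K) = ε (n : ZMod N) := by
    intro n
    by_cases hn : IsUnit (n : ZMod N)
    · obtain ⟨u, hu⟩ := hn
      obtain ⟨x, hx⟩ := hval _ (mem_eigA_e ε f hT u)
      exact ⟨x, by rw [hx, hu]⟩
    · exact ⟨0, by rw [MulChar.map_nonunit _ hn]; simp⟩
  choose a ha using ha'
  choose e he using he'
  refine ⟨K, inferInstance, hK, algebraMap K ℂ, a, e, fun p hp hpN => ⟨ha p hp hpN, he p⟩, ?_,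
    he, ?_⟩
  · -- conjugates
    intro τ
    obtain ⟨σ, hσ⟩ := exists_extend K τ
    obtain ⟨f', hf'⟩ := exists_conj_cusp' hN f σ
    have hq : ∀ n, qCoeff f' n = σ (qCoeff f n) := by
      intro n
      rw [← dcL_one, ← dcL_one, hf']
    refine ⟨ε.ringHomComp σ, f', by rw [hq, hf₁, map_one], ?_, ?_⟩
    · intro p hp hpN n
      rw [hq, hq, hq, hq, ← map_mul, ← hT p hp hpN n, map_add, map_mul, MulChar.ringHomComp_apply]
      split_ifs <;> simp
    · intro p hp hpN
      rw [hq, ← ha p hp hpN]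
      exact hσ _
  · -- descent
    have hspan : (f : CuspForm (Gamma1 N) 1) ∈
        Submodule.span ℂ (lat N 1 : Set (CuspForm (Gamma1 N) 1)) := by
      rw [span_lat hN]
      trivial
    obtain ⟨m, x, v, hfv⟩ := Submodule.mem_span_set'.mp hspan
    choose z hz using fun (i : Fin m) (n : ℕ) => (v i).2 1 n
    have hz' : ∀ i n, qCoeff (v i : CuspForm (Gamma1 N) 1) n = (z i n : ℂ) := by
      intro i n
      rw [← dcL_one, hz]
    let ι : 𝓞 K →+* ℂ := (algebraMap K ℂ).comp (algebraMap (𝓞 K) K)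
    have hι : Function.Injective ι :=
      (algebraMap K ℂ).injective.comp (RingOfIntegers.coe_injective)
    have hfc : ∀ n, qCoeff f n = ∑ i, ι (z i n : 𝓞 K) * x i := by
      intro n
      rw [← dcL_one, ← hfv, map_sum]
      refine Finset.sum_congr rfl fun i _ => ?_
      rw [map_smul, hz, map_intCast, smul_eq_mul, mul_comm]
    obtain ⟨y, hy0, hy⟩ := descend_ne' ι hι x (fun i => (z i 1 : 𝓞 K)) (by
      rw [← hfc 1, hf₁]
      exact one_ne_zero)
    set D₀ : 𝓞 K := ∑ i, (z i 1 : 𝓞 K) * y i with hD₀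
    let f₂ : CuspForm (Gamma1 N) 1 := ∑ i, ι (y i) • (v i : CuspForm (Gamma1 N) 1)
    have hf₂ : ∀ n, qCoeff f₂ n = ι (∑ i, (z i n : 𝓞 K) * y i) := by
      intro n
      rw [← dcL_one, map_sum, map_sum]
      refine Finset.sum_congr rfl fun i _ => ?_
      rw [map_smul, hz, map_mul, map_intCast, smul_eq_mul, mul_comm]
    have hD₀' : ι D₀ ≠ 0 := fun h => hy0 (hι (by rw [h, map_zero]))
    have hrel : ∀ p : ℕ, p.Prime → ¬ p ∣ N → ∀ n : ℕ,
        qCoeff f₂ (p * n) + ε (p : ZMod N) * (if p ∣ n then qCoeff f₂ (n / p) else 0) =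
          ι (a p) * qCoeff f₂ n := by
      intro p hp hpN n
      have h1 := hy (fun i => (z i (p * n) : 𝓞 K) + e p * (if p ∣ n then (z i (n / p) : 𝓞 K) else 0)
        - a p * (z i n : 𝓞 K)) (by
          have h2 := hT p hp hpN n
          rw [← sub_eq_zero, ← ha p hp hpN, ← he p, hfc, hfc, hfc] at h2
          rw [← h2]
          by_cases hpn : p ∣ n
          · simp only [if_pos hpn, Finset.mul_sum, ← Finset.sum_add_distrib,
              ← Finset.sum_sub_distrib]
            refine Finset.sum_congr rfl fun i _ => ?_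
            rw [map_sub, map_add, map_mul, map_mul]
            change _ = _ + (ι (e p)) * _ - (ι (a p)) * _
            ring
          · simp only [if_neg hpn, Finset.mul_sum, mul_zero, add_zero,
              ← Finset.sum_sub_distrib]
            refine Finset.sum_congr rfl fun i _ => ?_
            rw [map_sub, map_mul]
            change _ = _ - (ι (a p)) * _
            ring)
      have h3 := congrArg ι h1
      rw [map_zero] at h3
      rw [← sub_eq_zero, hf₂, hf₂, hf₂, ← he p]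
      refine Eq.trans ?_ h3
      change _ + ι (e p) * _ - _ = _
      by_cases hpn : p ∣ n
      · simp only [if_pos hpn]
        rw [← map_mul, ← map_add, ← map_mul, ← map_sub]
        congr 1
        simp only [Finset.mul_sum, ← Finset.sum_add_distrib, ← Finset.sum_sub_distrib]
        refine Finset.sum_congr rfl fun i _ => ?_
        ring
      · simp only [if_neg hpn, mul_zero, add_zero]
        rw [← map_mul, ← map_sub]
        congr 1
        simp only [Finset.mul_sum, ← Finset.sum_sub_distrib]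
        refine Finset.sum_congr rfl fun i _ => ?_
        ring
    let f₁ : CuspForm (Gamma1 N) 1 := (ι D₀)⁻¹ • f₂
    have hf₁' : ∀ n, qCoeff f₁ n = (ι D₀)⁻¹ * qCoeff f₂ n := by
      intro n
      rw [← dcL_one, ← dcL_one, map_smul, smul_eq_mul]
    have hf₁one : qCoeff f₁ 1 = 1 := by
      rw [hf₁', hf₂, ← hD₀, inv_mul_cancel₀ hD₀']
    have hrel₁ : ∀ p : ℕ, p.Prime → ¬ p ∣ N → ∀ n : ℕ,
        qCoeff f₁ (p * n) + ε (p : ZMod N) * (if p ∣ n then qCoeff f₁ (n / p) else 0) =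
          ι (a p) * qCoeff f₁ n := by
      intro p hp hpN n
      rw [hf₁', hf₁', hf₁', mul_left_comm (ι (a p)), ← hrel p hp hpN n]
      split_ifs <;> ring
    have hap : ∀ p : ℕ, p.Prime → ¬ p ∣ N → qCoeff f₁ p = ι (a p) := by
      intro p hp hpN
      have h1 := hrel₁ p hp hpN 1
      rw [mul_one, if_neg (fun h => hp.one_lt.ne' (Nat.dvd_one.mp h)), mul_zero, add_zero,
        hf₁one, mul_one] at h1
      exact h1
    obtain ⟨c, hc⟩ : D₀ ∣ ((Ideal.absNorm (Ideal.span {D₀}) : ℕ) : 𝓞 K) :=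
      Ideal.mem_span_singleton.mp (Ideal.absNorm_mem _)
    refine ⟨f₁, Ideal.absNorm (Ideal.span {D₀}), fun n => c * ∑ i, (z i n : 𝓞 K) * y i, ?_,
      hf₁one, ?_, hap, ?_⟩
    · rw [Ne, Ideal.absNorm_eq_zero_iff, Ideal.span_singleton_eq_bot]
      exact hy0
    · intro p hp hpN n
      rw [hap p hp hpN]
      exact hrel₁ p hp hpN n
    · intro n
      have h0 : algebraMap K ℂ ((c * ∑ i, (z i n : 𝓞 K) * y i : 𝓞 K) : K) =
        ι (c * ∑ i, (z i n : 𝓞 K) * y i) := rfl
      change algebraMap K ℂ ((c * ∑ i, (z i n : 𝓞 K) * y i : 𝓞 K) : K) = _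
      rw [h0, hf₁', hf₂]
      have h1 : ((Ideal.absNorm (Ideal.span {D₀}) : ℕ) : ℂ) = ι D₀ * ι c := by
        rw [← map_mul, ← hc, map_natCast]
      rw [h1, map_mul]
      field_simp

end

end Fermat.Agent.WOneB
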