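import Fermat.Agent.WOneB.HeckeL
import Fermat.Agent.WOne.Neben

set_option autoImplicit false
set_option linter.unusedSectionVars false

/-!
# The number field of an eigenform of weight one
-/

open CongruenceSubgroup ModularForm UpperHalfPlane Matrix.SpecialLinearGroup ModularFormClass
open NumberField
open scoped MatrixGroups ModularForm Manifold OnePoint Topology
open Fermat.Agent.IntStr Fermat.Agent.WOne

namespace Fermat.Agent.WOneB

noncomputable section

section Alg

/-- extension of embeddings of number fields -/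
theorem exists_extend (K : IntermediateField ℚ ℂ) [Algebra.IsAlgebraic ℚ K] (τ : K →+* ℂ) :
    ∃ σ : ℂ →+* ℂ, ∀ z : K, σ z = τ z := by
  let F := algebraicClosure ℚ ℂ
  have hcl : IsAlgClosure ℚ F := algebraicClosure.isAlgClosure ℚ ℂ
  have hgal : IsGalois ℚ F := IsAlgClosure.isGalois ℚ F
  have hmem : ∀ z : K, τ z ∈ F := by
    intro z
    rw [mem_algebraicClosure_iff]
    have h1 : IsAlgebraic ℚ z := Algebra.IsAlgebraic.isAlgebraic z
    exact h1.algHom (τ.toRatAlgHom)
  let τF : K →+* F := τ.codRestrict F hmem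
  obtain ⟨t, ht⟩ := exists_isTranscendenceBasis ℚ ℂ
  have ht' : IsTranscendenceBasis F (Subtype.val : t → ℂ) :=
    (Algebra.IsAlgebraic.isTranscendenceBasis_iff ℚ F).mp ht
  have htK : IsTranscendenceBasis K (Subtype.val : t → ℂ) :=
    (Algebra.IsAlgebraic.isTranscendenceBasis_iff ℚ K).mp ht
  have hx := ht'.1
  have hxK := htK.1
  have halg : Algebra.IsAlgebraic (Algebra.adjoin K (Set.range (Subtype.val : t → ℂ))) ℂ :=
    htK.isAlgebraic
  let j : Algebra.adjoin K (Set.range (Subtype.val : t → ℂ)) →+* ℂ :=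
    ((MvPolynomial.aeval (R := F) (Subtype.val : t → ℂ)).toRingHom.comp
      (MvPolynomial.map τF)).comp
        hxK.aevalEquiv.symm.toRingEquiv.toRingHom
  have hj : Function.Injective j := by
    have h1 : Function.Injective (MvPolynomial.aeval (R := F) (Subtype.val : t → ℂ)) := hx
    have h2 : Function.Injective (MvPolynomial.map (σ := t) τF) :=
      MvPolynomial.map_injective _ τF.injective
    exact (h1.comp h2).comp hxK.aevalEquiv.symm.injective
  obtain ⟨σ, hσ⟩ := exists_ringHom_extension (S := ℂ) j hj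
  refine ⟨σ, fun z => ?_⟩
  have h1 : algebraMap (Algebra.adjoin K (Set.range (Subtype.val : t → ℂ))) ℂ
      (hxK.aevalEquiv (MvPolynomial.C z)) = z := by
    rw [AlgebraicIndependent.algebraMap_aevalEquiv, MvPolynomial.aeval_C]
    rfl
  have h2 := hσ (hxK.aevalEquiv (MvPolynomial.C z))
  rw [h1] at h2
  have h3 : j (hxK.aevalEquiv (MvPolynomial.C z)) = τ z := by
    show MvPolynomial.aeval _ (MvPolynomial.map τF
      (hxK.aevalEquiv.symm (hxK.aevalEquiv (MvPolynomial.C z)))) = _
    rw [AlgEquiv.symm_apply_apply, MvPolynomial.map_C, MvPolynomial.aeval_C]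
    rfl
  rw [h2, h3]

/-- descent of vectors keeping one linear form nonzero -/
theorem descend_ne' {O E : Type*} [CommRing O] [IsDomain O] [Field E] (ι : O →+* E)
    (hι : Function.Injective ι) {k : Type*} [Fintype k] (x : k → E) (c : k → O)
    (hc : ∑ i, ι (c i) * x i ≠ 0) :
    ∃ y : k → O, ∑ i, c i * y i ≠ 0 ∧ ∀ (v : k → O), ∑ i, ι (v i) * x i = 0 →
      ∑ i, v i * y i = 0 := by
  classical
  let K := FractionRing O
  let φ : K →+* E := IsFractionRing.lift (A := O) (K := K) (g := ι) hι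
  have hφ : ∀ a : O, φ (algebraMap O K a) = ι a := fun a => IsFractionRing.lift_algebraMap hι a
  let _ : Algebra K E := φ.toAlgebra
  obtain ⟨f, hf⟩ : ∃ f : Module.Dual K E, f (∑ i, ι (c i) * x i) ≠ 0 := by
    by_contra hcon
    push Not at hcon
    exact hc ((Module.forall_dual_apply_eq_zero_iff K _).mp hcon)
  obtain ⟨d, hd⟩ := IsLocalization.exist_integer_multiples_of_finite (nonZeroDivisors O)
    (fun i => f (x i))
  choose y hy using hd
  have hinj : Function.Injective (algebraMap O K) := IsFractionRing.injective O K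
  have hd0 : algebraMap O K d ≠ 0 := by
    intro h
    exact nonZeroDivisors.coe_ne_zero d (hinj (by rw [h, map_zero]))
  have key : ∀ v : k → O, algebraMap O K (∑ i, v i * y i) =
      algebraMap O K d * f (∑ i, ι (v i) * x i) := by
    intro v
    have h1 : ∀ i, algebraMap O K (v i * y i) = algebraMap O K d * f (ι (v i) * x i) := by
      intro i
      have h2 : ι (v i) * x i = algebraMap O K (v i) • x i := by
        rw [← hφ, Algebra.smul_def]; rfl
      have h3 : (d : O) • f (x i) = algebraMap O K d * f (x i) := Algebra.smul_def _ _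
      rw [h2, map_smul, map_mul, hy i, h3, smul_eq_mul]
      ring
    rw [map_sum, Finset.sum_congr rfl (fun i _ => h1 i), ← Finset.mul_sum, ← map_sum]
  refine ⟨y, fun h => ?_, fun v hv => hinj ?_⟩
  · have h1 := key c
    rw [h, map_zero] at h1
    exact mul_ne_zero hd0 hf h1.symm
  · rw [key, hv, map_zero, mul_zero, map_zero]

end Alg

variable {N : ℕ} [NeZero N] {k : ℤ}

/-- level one and two have no forms of weight one -/
theorem three_le (f : CuspForm (Gamma1 N) 1) (hf₁ : qCoeff f 1 = 1) : 3 ≤ N := by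
  by_contra hcon
  have h1 : (-1 : SL(2, ℤ)) ∈ Gamma1 N := by
    rw [Gamma1_mem]
    have hN : N = 1 ∨ N = 2 := by
      have := NeZero.ne N
      omega
    rcases hN with rfl | rfl
    · exact ⟨Subsingleton.elim _ _, Subsingleton.elim _ _, Subsingleton.elim _ _⟩
    · refine ⟨?_, ?_, ?_⟩ <;> simp
  have h2 : (f : ℍ → ℂ) ∣[(1 : ℤ)] (-1 : SL(2, ℤ)) = f := invar f _ h1
  have h3 : ∀ z, (f : ℍ → ℂ) z = 0 := by
    intro z
    have h4 := congrFun h2 z
    rw [ModularForm.SL_slash_apply] at h4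
    have h5 : (-1 : SL(2, ℤ)) • z = z := by
      rw [ModularGroup.SL_neg_smul, one_smul]
    rw [h5] at h4
    have h6 : denom (-1 : SL(2, ℤ)) z = -1 := by
      simp [UpperHalfPlane.denom]
    rw [h6] at h4
    have h7 : ((-1 : ℂ)) ^ (-(1 : ℤ)) = -1 := by norm_num
    rw [h7] at h4
    linear_combination (-1 / 2 : ℂ) * h4
  have h8 : f = 0 := by
    ext z
    exact h3 z
  rw [h8] at hf₁
  have h9 : qCoeff (0 : CuspForm (Gamma1 N) 1) 1 = 0 := by
    rw [← dcL_one, map_zero]
  rw [h9] at hf₁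
  exact zero_ne_one hf₁

section Eigen

variable (N k) in
/-- the endomorphisms preserving the lattice -/
def stab : Subalgebra ℤ (Module.End ℂ (CuspForm (Gamma1 N) k)) where
  carrier := {t | ∀ v ∈ lat N k, t v ∈ lat N k}
  mul_mem' := fun {s t} hs ht v hv => hs _ (ht v hv)
  add_mem' := fun {s t} hs ht v hv => (lat N k).add_mem (hs v hv) (ht v hv)
  algebraMap_mem' := by
    intro n v hv
    have h1 : (algebraMap ℤ (Module.End ℂ (CuspForm (Gamma1 N) k)) n) v = n • v := by
      rw [Algebra.algebraMap_eq_smul_one]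
      rfl
    rw [h1]
    exact (lat N k).smul_mem n hv

/-- the ring of eigenvalues of `f` -/
def eigA (f : CuspForm (Gamma1 N) k) : Subalgebra ℤ ℂ where
  carrier := {c | ∃ t ∈ stab N k, t f = c • f}
  mul_mem' := by
    rintro a b ⟨s, hs, hs'⟩ ⟨t, ht, ht'⟩
    refine ⟨s * t, mul_mem hs ht, ?_⟩
    rw [Module.End.mul_apply, ht', map_smul, hs', smul_smul, mul_comm]
  add_mem' := by
    rintro a b ⟨s, hs, hs'⟩ ⟨t, ht, ht'⟩
    refine ⟨s + t, add_mem hs ht, ?_⟩
    rw [LinearMap.add_apply, hs', ht', add_smul]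
  algebraMap_mem' := by
    intro n
    refine ⟨algebraMap ℤ _ n, Subalgebra.algebraMap_mem _ n, ?_⟩
    rw [Algebra.algebraMap_eq_smul_one, LinearMap.smul_apply, Module.End.one_apply]
    simp [Int.cast_smul_eq_zsmul]

/-- the endomorphisms with eigenvector `f` -/
def eigP (f : CuspForm (Gamma1 N) k) : Submodule ℤ (Module.End ℂ (CuspForm (Gamma1 N) k)) where
  carrier := {t | t ∈ stab N k ∧ ∃ c : ℂ, t f = c • f}
  add_mem' := by
    rintro s t ⟨hs, a, hs'⟩ ⟨ht, b, ht'⟩
    refine ⟨add_mem hs ht, a + b, ?_⟩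
    rw [LinearMap.add_apply, hs', ht', add_smul]
  zero_mem' := ⟨zero_mem _, 0, by simp⟩
  smul_mem' := by
    rintro n t ⟨ht, c, ht'⟩
    refine ⟨zsmul_mem ht n, n * c, ?_⟩
    rw [LinearMap.smul_apply, ht', mul_smul, Int.cast_smul_eq_zsmul]

theorem lat_free (hN : 3 ≤ N) : Module.Free ℤ (lat N k) := by
  have := lat_fg (k := k) hN
  have : Module.IsTorsionFree ℤ (lat N k) := by
    apply Module.IsTorsionFree.of_smul_eq_zero
    intro r m hm
    have h1 : (r : ℂ) • (m : CuspForm (Gamma1 N) k) = 0 := by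
      rw [Int.cast_smul_eq_zsmul]
      exact congrArg Subtype.val hm
    rcases smul_eq_zero.mp h1 with h2 | h2
    · left
      exact_mod_cast h2
    · right
      exact Subtype.ext h2
  infer_instance

theorem eigP_finite (hN : 3 ≤ N) (f : CuspForm (Gamma1 N) k) : Module.Finite ℤ (eigP f) := by
  have h1 := lat_fg (k := k) hN
  have h2 := lat_free (k := k) hN
  let R : eigP f →ₗ[ℤ] (lat N k →ₗ[ℤ] lat N k) :=
    { toFun := fun t => (t.1.restrictScalars ℤ).restrict (p := lat N k) (q := lat N k)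
        fun v hv => t.2.1 v hv
      map_add' := fun s t => rfl
      map_smul' := fun n t => rfl }
  refine Module.Finite.of_injective R ?_
  refine (injective_iff_map_eq_zero _).mpr fun t ht => ?_
  apply Subtype.ext
  have h3 : ∀ v ∈ lat N k, t.1 v = 0 := fun v hv =>
    congrArg Subtype.val (LinearMap.congr_fun ht ⟨v, hv⟩)
  apply LinearMap.ext_on (span_lat (k := k) hN)
  intro v hv
  exact h3 v hv

theorem eigA_fg (hN : 3 ≤ N) (f : CuspForm (Gamma1 N) k) (hf₁ : qCoeff f 1 = 1) :
    (Subalgebra.toSubmodule (eigA f)).FG := by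
  have h1 := eigP_finite hN f
  let L : Module.End ℂ (CuspForm (Gamma1 N) k) →ₗ[ℤ] ℂ :=
    { toFun := fun t => dcL N k 1 1 (t f)
      map_add' := fun s t => by rw [LinearMap.add_apply, map_add]
      map_smul' := fun n t => by
        rw [LinearMap.smul_apply, map_zsmul, RingHom.id_apply] }
  have h2 : Subalgebra.toSubmodule (eigA f) = (eigP f).map L := by
    ext c
    constructor
    · rintro ⟨t, ht, ht'⟩
      refine ⟨t, ⟨ht, c, ht'⟩, ?_⟩
      change dcL N k 1 1 (t f) = c
      rw [ht', map_smul, dcL_one, hf₁, smul_eq_mul, mul_one]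
    · rintro ⟨t, ⟨ht, b, ht'⟩, rfl⟩
      refine ⟨t, ht, ?_⟩
      change t f = dcL N k 1 1 (t f) • f
      rw [ht', map_smul, dcL_one, hf₁, smul_eq_mul, mul_one]
  rw [h2]
  exact (Module.Finite.iff_fg.mp h1).map L

/-- the number field generated by the eigenvalues -/
theorem exists_field (hN : 3 ≤ N) (f : CuspForm (Gamma1 N) k) (hf₁ : qCoeff f 1 = 1) :
    ∃ K : IntermediateField ℚ ℂ, NumberField K ∧ ∀ c ∈ eigA f, c ∈ K ∧ IsIntegral ℤ c := by
  obtain ⟨S, hS⟩ := eigA_fg hN f hf₁
  have hint : ∀ c ∈ eigA f, IsIntegral ℤ c := fun c hc =>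
    IsIntegral.of_mem_of_fg _ ⟨S, hS⟩ c hc
  have hfd : FiniteDimensional ℚ (IntermediateField.adjoin ℚ (S : Set ℂ)) := by
    apply IntermediateField.finiteDimensional_adjoin
    intro x hx
    have h1 : x ∈ Subalgebra.toSubmodule (eigA f) := by
      rw [← hS]
      exact Submodule.subset_span hx
    exact (hint x h1).tower_top
  refine ⟨IntermediateField.adjoin ℚ (S : Set ℂ), @NumberField.mk _ _ inferInstance hfd,
    fun c hc => ⟨?_, hint c hc⟩⟩
  have h1 : c ∈ Submodule.span ℤ (S : Set ℂ) := by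
    rw [hS]
    exact hc
  have h2 : Submodule.span ℤ (S : Set ℂ) ≤
      ((IntermediateField.adjoin ℚ (S : Set ℂ)).toSubring.toAddSubgroup.toIntSubmodule) := by
    rw [Submodule.span_le]
    intro x hx
    exact IntermediateField.subset_adjoin ℚ _ hx
  exact h2 h1

section WeightOne

variable (ε : DirichletCharacter ℂ N) (f : CuspForm (Gamma1 N) 1)
  (hT : ∀ p : ℕ, p.Prime → ¬ p ∣ N → ∀ n : ℕ,
    qCoeff f (p * n) + ε (p : ZMod N) * (if p ∣ n then qCoeff f (n / p) else 0) =
      qCoeff f p * qCoeff f n)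

include hT

theorem diaL_eig (u : (ZMod N)ˣ) : diaL u f = ε u • f := by
  apply ext_dcL
  intro n
  rw [dcL_diaL, mul_one, dcL_apply, nebentypus ε f hT u, map_smul, dcL_one,
    qE_smul (f := (f : ℍ → ℂ)) (by
      have := (isFamForm_cusp f).mem_perSub 1
      rwa [fam_one'] at this)]
  rfl

theorem tpL_eig {p : ℕ} (hp : p.Prime) (hpN : ¬ p ∣ N) {u : (ZMod N)ˣ}
    (hu : (u : ZMod N) = (p : ZMod N)) : tpL hp hpN hu f = qCoeff f p • f := by
  apply ext_dcL
  intro n
  rw [dcL_tpL, mul_one, map_smul, dcL_one, dcL_one, smul_eq_mul, ← hT p hp hpN n, mul_comm n p]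
  congr 1
  have h1 : ∀ m, dcL N 1 u m f = ε u * qCoeff f m := by
    intro m
    have h2 := congrArg (dcL N 1 1 m) (diaL_eig ε f hT u)
    rw [dcL_diaL, mul_one, map_smul, dcL_one] at h2
    exact h2
  rw [h1, hu]
  split_ifs
  · simp
  · simp

theorem mem_eigA_a {p : ℕ} (hp : p.Prime) (hpN : ¬ p ∣ N) : qCoeff f p ∈ eigA f := by
  obtain ⟨u, hu⟩ : ∃ u : (ZMod N)ˣ, (u : ZMod N) = p :=
    (ZMod.isUnit_iff_coprime p N).mpr ((Nat.Prime.coprime_iff_not_dvd hp).mpr hpN)
  exact ⟨tpL hp hpN hu, fun v hv => tpL_mem_lat hp hpN hu hv, tpL_eig ε f hT hp hpN hu⟩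

theorem mem_eigA_e (u : (ZMod N)ˣ) : ε u ∈ eigA f :=
  ⟨diaL u, fun _ hv => diaL_mem_lat u hv, diaL_eig ε f hT u⟩

end WeightOne

end Eigen

end

end Fermat.Agent.WOneB
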