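import Fermat.Agent.WOne.ConjFam

set_option autoImplicit false
set_option linter.unusedSectionVars false

/-!
# Finite dimensionality of spaces of cusp forms for `Γ₁(N)`
-/

open CongruenceSubgroup ModularForm UpperHalfPlane Matrix.SpecialLinearGroup ModularFormClass
open scoped MatrixGroups ModularForm Manifold OnePoint Topology
open Fermat.Agent.IntStr Fermat.Agent.WOne

namespace Fermat.Agent.WOneB

noncomputable section

variable {N : ℕ} [NeZero N] {k : ℤ}

theorem invar (f : CuspForm (Gamma1 N) k) : ∀ g ∈ Gamma1 N, (f : ℍ → ℂ) ∣[k] g = f :=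
  fun γ hγ => SlashInvariantFormClass.slash_action_eq f _ ⟨γ, hγ, rfl⟩

theorem fam_one' (f : CuspForm (Gamma1 N) k) : fam N k f 1 = f := fam_one (invar f)

omit [NeZero N] in
theorem fam_add (f g : ℍ → ℂ) : fam N k (f + g) = fam N k f + fam N k g := by
  funext d
  rw [fam, SlashAction.add_slash]
  rfl

omit [NeZero N] in
theorem fam_smul (c : ℂ) (f : ℍ → ℂ) : fam N k (c • f) = c • fam N k f := by
  funext d
  rw [fam, SL_smul_slash]
  rfl

section Lin

variable {ι : Type*} [Fintype ι] [DecidableEq ι]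

theorem interpI_add (u u' v : ι → ℍ → ℂ) : interpI (u + u') v = interpI u v + interpI u' v := by
  unfold interpI
  rw [← Finset.sum_add_distrib]
  refine Finset.sum_congr rfl fun q _ => ?_
  rw [Pi.add_apply, map_add, add_mul]

theorem interpI_smul (c : ℂ) (u v : ι → ℍ → ℂ) (i : ℕ) :
    (interpI (c • u) v).coeff i = c • (interpI u v).coeff i := by
  have h1 : interpI (c • u) v = Polynomial.C (fun _ => c) * interpI u v := by
    unfold interpI
    rw [Finset.mul_sum]
    refine Finset.sum_congr rfl fun q _ => ?_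
    rw [← mul_assoc, ← map_mul]
    rfl
  rw [h1, Polynomial.coeff_C_mul]
  rfl

end Lin

theorem isFamForm_cusp (f : CuspForm (Gamma1 N) k) : IsFamForm N k (fam N k f) :=
  (IsFamCusp.of_cusp f).isFamForm

/-- coefficients of the interpolation polynomials, as functionals -/
def cfL (N : ℕ) [NeZero N] (k : ℤ) (i j : ℕ) : CuspForm (Gamma1 N) k →ₗ[ℂ] ℂ where
  toFun f := (qExpansion 1 ((interpI (fam N k f) (Hfam N)).coeff i)).coeff j
  map_add' f g := by
    have h1 : fam N k ⇑(f + g) = fam N k f + fam N k g := by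
      rw [FunLike.coe_add]; exact fam_add _ _
    rw [h1, interpI_add, Polynomial.coeff_add,
      qE_add (isForm_coeff_interpI (isFamForm_cusp f) (isFamForm_Hfam N) i).mem_perSub
        (isForm_coeff_interpI (isFamForm_cusp g) (isFamForm_Hfam N) i).mem_perSub, map_add]
  map_smul' c f := by
    have h1 : fam N k ⇑(c • f) = c • fam N k f := fam_smul c _
    rw [h1, interpI_smul,
      qE_smul (isForm_coeff_interpI (isFamForm_cusp f) (isFamForm_Hfam N) i).mem_perSub]
    rfl

theorem isForm_eq_zero {w : ℤ} {g : ℍ → ℂ} (hg : IsForm N w g)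
    (h : ∀ n : ℕ, n ≤ (w * (Gamma0 N).index).toNat / 12 → (qExpansion 1 g).coeff n = 0) :
    g = 0 := by
  have h1 := ModularForm.sturm_bound_Gamma0 N hg.toModularForm h
  have h2 := congrArg (fun F : ModularForm (Gamma0 N) w => (F : ℍ → ℂ)) h1
  exact h2

theorem finiteDimensional_cusp (hN : 3 ≤ N) : FiniteDimensional ℂ (CuspForm (Gamma1 N) k) := by
  classical
  set n := Fintype.card (ZMod N)ˣ with hn
  let b : ℕ → ℕ := fun i => ((k + 3 * ((n : ℤ) - 1 - i)) * (Gamma0 N).index).toNat / 12
  let B := ∑ i ∈ Finset.range n, b i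
  let T : CuspForm (Gamma1 N) k →ₗ[ℂ] (Fin n × Fin (B + 1) → ℂ) :=
    LinearMap.pi (fun x => cfL N k x.1 x.2)
  refine FiniteDimensional.of_injective T ?_
  refine (injective_iff_map_eq_zero _).mpr fun f hf ↦ ?_
  have h0 : ∀ i < n, (interpI (fam N k f) (Hfam N)).coeff i = 0 := by
    intro i hi
    refine isForm_eq_zero (isForm_coeff_interpI (isFamForm_cusp f) (isFamForm_Hfam N) i) ?_
    intro j hj
    have hjB : j ≤ B := hj.trans
      (Finset.single_le_sum (f := b) (fun _ _ => Nat.zero_le _) (Finset.mem_range.mpr hi))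
    exact congrFun hf (⟨i, hi⟩, ⟨j, Nat.lt_succ_of_le hjB⟩)
  have h1 := mul_difI (fam N k f) (Hfam N) 1
  rw [← hn, Finset.sum_eq_zero (fun i hi => by
    rw [h0 i (Finset.mem_range.mp hi), zero_mul]), fam_one'] at h1
  have h2 : (f : ℍ → ℂ) = 0 := by
    rcases (UpperHalfPlane.mul_eq_zero_iff f.holo' (DH_mem_perSub (N := N) 1).2.1).mp h1 with h | h
    · exact h
    · exact absurd h (DH_ne_zero hN 1)
  exact DFunLike.coe_injective h2

end

end Fermat.Agent.WOneB
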