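import Fermat.Agent.WOneB.Ratl

set_option autoImplicit false
set_option linter.unusedSectionVars false

/-!
# Hecke operators on cusp forms of weight one for `Γ₁(N)`
-/

open CongruenceSubgroup ModularForm UpperHalfPlane Matrix.SpecialLinearGroup ModularFormClass
open scoped MatrixGroups ModularForm Manifold OnePoint Topology
open Fermat.Agent.IntStr Fermat.Agent.WOne

namespace Fermat.Agent.WOneB

noncomputable section

variable {N : ℕ} [NeZero N] {k : ℤ}

theorem ext_dcL {f g : CuspForm (Gamma1 N) k} (h : ∀ n, dcL N k 1 n f = dcL N k 1 n g) : f = g :=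
  eq_of_coeffs fun n => by rw [← dcL_one, ← dcL_one, h n]

theorem fam_toCusp {F : (ZMod N)ˣ → ℍ → ℂ} (hF : IsFamCusp N k F) (u d : (ZMod N)ˣ) :
    fam N k ⇑(hF.toCusp u) d = F (u * d) := by
  have h1 := (hF.dia u).fam.eq_fam d
  have h2 : fam N k ⇑(hF.toCusp u) d = fam N k (WOne.dia u F 1) d := by
    rw [IsFamCusp.coe_toCusp, WOne.dia, mul_one]
  rw [h2, ← h1]
  rfl

/-- diamond operators -/
def diaL (u : (ZMod N)ˣ) : CuspForm (Gamma1 N) k →ₗ[ℂ] CuspForm (Gamma1 N) k where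
  toFun f := (IsFamCusp.of_cusp f).toCusp u
  map_add' f g := by
    apply ext_dcL
    intro n
    rw [map_add, dcL_apply, dcL_apply, dcL_apply, fam_toCusp, fam_toCusp, fam_toCusp, mul_one,
      ← dcL_apply, ← dcL_apply, ← dcL_apply, map_add]
  map_smul' c f := by
    apply ext_dcL
    intro n
    rw [map_smul, dcL_apply, dcL_apply, fam_toCusp, RingHom.id_apply, fam_toCusp, mul_one,
      ← dcL_apply, ← dcL_apply, map_smul]

theorem dcL_diaL (u d : (ZMod N)ˣ) (n : ℕ) (f : CuspForm (Gamma1 N) k) :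
    dcL N k d n (diaL u f) = dcL N k (u * d) n f := by
  rw [dcL_apply, dcL_apply]
  change (qExpansion 1 (fam N k ⇑((IsFamCusp.of_cusp f).toCusp u) d)).coeff n = _
  rw [fam_toCusp]

/-- the underlying form of `T_p f` -/
def tpF {p : ℕ} (hp : p.Prime) (hpN : ¬ p ∣ N) {u : (ZMod N)ˣ} (hu : (u : ZMod N) = (p : ZMod N))
    (f : CuspForm (Gamma1 N) k) : CuspForm (Gamma1 N) k :=
  ((IsFamCusp.of_cusp f).famT hp hpN hu).toCusp 1

theorem dcL_tpF {p : ℕ} (hp : p.Prime) (hpN : ¬ p ∣ N) {u : (ZMod N)ˣ}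
    (hu : (u : ZMod N) = (p : ZMod N)) (f : CuspForm (Gamma1 N) k) (d : (ZMod N)ˣ) (n : ℕ) :
    dcL N k d n (tpF hp hpN hu f) = dcL N k d (n * p) f +
      if p ∣ n then (p : ℂ) ^ (k - 1) * dcL N k (u * d) (n / p) f else 0 := by
  have hF := isFamForm_cusp f
  rw [dcL_apply]
  change (qExpansion 1 (fam N k ⇑(((IsFamCusp.of_cusp f).famT hp hpN hu).toCusp 1) d)).coeff n = _
  rw [fam_toCusp, one_mul]
  change qCoeff (heckeU k p (fam N k f d) + (fam N k f (u * d)) ∣[k] heckeDiagMatrix p) n = _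
  rw [qCoeff_add (heckeU_mem_perSub (hF.mem_perSub d) k p)
    (slashDiag_mem_perSub (hF.mem_perSub (u * d)) k p),
    qCoeff_slashDiag (hF.mem_perSub (u * d)) k hp.ne_zero,
    UpperHalfPlane.qCoeff_heckeU (hF.mem_perSub d).1 (hF.mem_perSub d).2.1
      (hF.mem_perSub d).2.2 k hp.ne_zero, coeffHeckeU_apply]
  rfl

/-- Hecke operators -/
def tpL {p : ℕ} (hp : p.Prime) (hpN : ¬ p ∣ N) {u : (ZMod N)ˣ} (hu : (u : ZMod N) = (p : ZMod N)) :
    CuspForm (Gamma1 N) k →ₗ[ℂ] CuspForm (Gamma1 N) k where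
  toFun f := tpF hp hpN hu f
  map_add' f g := by
    apply ext_dcL
    intro n
    rw [map_add, dcL_tpF, dcL_tpF, dcL_tpF, map_add, map_add]
    split_ifs <;> ring
  map_smul' c f := by
    apply ext_dcL
    intro n
    rw [map_smul, dcL_tpF, RingHom.id_apply, dcL_tpF, map_smul, map_smul]
    simp only [smul_eq_mul]
    split_ifs <;> ring

theorem dcL_tpL {p : ℕ} (hp : p.Prime) (hpN : ¬ p ∣ N) {u : (ZMod N)ˣ}
    (hu : (u : ZMod N) = (p : ZMod N)) (f : CuspForm (Gamma1 N) k) (d : (ZMod N)ˣ) (n : ℕ) :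
    dcL N k d n (tpL hp hpN hu f) = dcL N k d (n * p) f +
      if p ∣ n then (p : ℂ) ^ (k - 1) * dcL N k (u * d) (n / p) f else 0 :=
  dcL_tpF hp hpN hu f d n

theorem diaL_mem_lat (u : (ZMod N)ˣ) {f : CuspForm (Gamma1 N) k} (hf : f ∈ lat N k) :
    diaL u f ∈ lat N k := by
  intro d n
  rw [dcL_diaL]
  exact hf (u * d) n

theorem tpL_mem_lat {p : ℕ} (hp : p.Prime) (hpN : ¬ p ∣ N) {u : (ZMod N)ˣ}
    (hu : (u : ZMod N) = (p : ZMod N)) {f : CuspForm (Gamma1 N) 1} (hf : f ∈ lat N 1) :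
    tpL hp hpN hu f ∈ lat N 1 := by
  intro d n
  rw [dcL_tpL]
  obtain ⟨m, hm⟩ := hf d (n * p)
  obtain ⟨m', hm'⟩ := hf (u * d) (n / p)
  rw [hm, hm']
  split_ifs
  · exact ⟨m + m', by push_cast; simp⟩
  · exact ⟨m, by simp⟩

section Fg

/-- finitely many functionals suffice to separate points -/
theorem exists_finset_sep {V : Type*} [AddCommGroup V] [Module ℂ V] [FiniteDimensional ℂ V]
    (a : ℕ → V →ₗ[ℂ] ℂ) (hinj : ∀ v, (∀ n, a n v = 0) → v = 0) :
    ∃ s : Finset ℕ, ∀ v, (∀ n ∈ s, a n v = 0) → v = 0 := by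
  classical
  let K : Finset ℕ → Submodule ℂ V := fun s => ⨅ n ∈ s, LinearMap.ker (a n)
  obtain ⟨_, ⟨s, rfl⟩, hs⟩ := (wellFounded_lt (α := Submodule ℂ V)).has_min (Set.range K)
    ⟨_, ⟨∅, rfl⟩⟩
  have hmem : ∀ (s : Finset ℕ) v, v ∈ K s ↔ ∀ n ∈ s, a n v = 0 := by
    intro s v
    simp [K, Submodule.mem_iInf]
  refine ⟨s, fun v hv => hinj v fun n => ?_⟩
  have h1 : K (insert n s) ≤ K s := by
    intro w hw
    rw [hmem] at hw ⊢
    exact fun m hm => hw m (Finset.mem_insert_of_mem hm)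
  have h2 : K (insert n s) = K s := by
    by_contra hne
    exact hs _ ⟨insert n s, rfl⟩ (lt_of_le_of_ne h1 hne)
  have h3 : v ∈ K (insert n s) := by
    rw [h2, hmem]
    exact hv
  rw [hmem] at h3
  exact h3 n (Finset.mem_insert_self n s)

theorem lat_fg (hN : 3 ≤ N) : Module.Finite ℤ (lat N k) := by
  classical
  have hfd := finiteDimensional_cusp (k := k) hN
  obtain ⟨s, hs⟩ := exists_finset_sep (V := CuspForm (Gamma1 N) k) (fun n => dcL N k 1 n)
    (fun v hv => ext_dcL fun n => by rw [hv n, map_zero])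
  choose m hm using fun (f : lat N k) (n : s) => f.2 1 n.1
  let T : lat N k →ₗ[ℤ] (s → ℤ) :=
    { toFun := fun f n => m f n
      map_add' := by
        intro f g
        funext n
        have h1 := hm (f + g) n
        rw [Submodule.coe_add, map_add, hm f n, hm g n] at h1
        exact_mod_cast h1.symm
      map_smul' := by
        intro c f
        funext n
        have h1 := hm (c • f) n
        rw [Submodule.coe_smul, map_zsmul, hm f n, zsmul_eq_mul] at h1
        exact_mod_cast h1.symm }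
  refine Module.Finite.of_injective T ?_
  refine (injective_iff_map_eq_zero _).mpr fun f hf ↦ ?_
  apply Subtype.ext
  apply hs
  intro n hn
  have h1 := hm f ⟨n, hn⟩
  have h2 : m f ⟨n, hn⟩ = 0 := congrFun hf ⟨n, hn⟩
  rw [h1, h2, Int.cast_zero]

end Fg

end

end Fermat.Agent.WOneB
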