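import Fermat.Agent.WOneB.FinDim

set_option autoImplicit false
set_option linter.unusedSectionVars false

/-!
# Rational and integral structures on cusp forms for `Γ₁(N)`
-/

open CongruenceSubgroup ModularForm UpperHalfPlane Matrix.SpecialLinearGroup ModularFormClass
open scoped MatrixGroups ModularForm Manifold OnePoint Topology
open Fermat.Agent.IntStr Fermat.Agent.WOne

namespace Fermat.Agent.WOneB

noncomputable section

variable {N : ℕ} [NeZero N] {k : ℤ}

/-- functions with rational expansions -/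
def ratSub : Subring (ℍ → ℂ) where
  carrier := {g | g ∈ perSub ∧ ∃ x : PowerSeries ℚ, iQ x = qExpansion 1 g}
  mul_mem' := by
    rintro f g ⟨hf, x, hx⟩ ⟨hg, y, hy⟩
    exact ⟨mul_mem hf hg, x * y, by rw [map_mul, hx, hy, qE_mul hf hg]⟩
  one_mem' := ⟨one_mem _, 1, by rw [map_one, qExpansion_one]⟩
  add_mem' := by
    rintro f g ⟨hf, x, hx⟩ ⟨hg, y, hy⟩
    exact ⟨add_mem hf hg, x + y, by rw [map_add, hx, hy, qE_add hf hg]⟩
  zero_mem' := ⟨zero_mem _, 0, by rw [map_zero, qExpansion_zero]⟩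
  neg_mem' := by
    rintro f ⟨hf, x, hx⟩
    refine ⟨neg_mem hf, -x, ?_⟩
    rw [map_neg, hx]
    have h1 := qE_smul hf (-1)
    rw [_root_.neg_smul, _root_.one_smul, _root_.neg_smul, _root_.one_smul] at h1
    exact h1.symm

theorem mem_ratSub {g : ℍ → ℂ} : g ∈ ratSub ↔ g ∈ perSub ∧
    ∃ x : PowerSeries ℚ, iQ x = qExpansion 1 g := Iff.rfl

theorem Hfam_mem_ratSub (hN : 2 ≤ N) (d : (ZMod N)ˣ) : Hfam N d ∈ ratSub := by
  refine ⟨(isFamForm_Hfam N).mem_perSub d, ?_⟩
  have h := isInt_Hfam N hN d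
  choose m hm using h
  refine ⟨PowerSeries.mk fun n => (m n : ℚ), ?_⟩
  ext n
  rw [hm]
  simp

/-- Families with rational expansions have bounded denominators. -/
theorem fam_bounded (hN : 3 ≤ N) {F : (ZMod N)ˣ → ℍ → ℂ} (hF : IsFamForm N k F)
    (hr : ∀ d, F d ∈ ratSub) (d : (ZMod N)ˣ) (x : PowerSeries ℚ)
    (hx : iQ x = qExpansion 1 (F d)) : x ∈ BD := by
  have hH := isFamForm_Hfam N
  have hHr : ∀ d, Hfam N d ∈ ratSub := Hfam_mem_ratSub (by omega)
  set n := Fintype.card (ZMod N)ˣ with hn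
  have hiQ : Function.Injective (iQ : PowerSeries ℚ →+* PowerSeries ℂ) := by
    intro a b h
    ext i
    have h1 := congrArg (PowerSeries.coeff i) h
    simpa using h1
  -- rational coefficients of the two polynomials
  have hs : ∀ i, ∃ s : PowerSeries ℚ, iQ s = qExpansion 1 ((chrI F).coeff i) := fun i =>
    (coeff_chrI_mem ratSub hr i).2
  have hc : ∀ i, ∃ c : PowerSeries ℚ, iQ c = qExpansion 1 ((interpI F (Hfam N)).coeff i) :=
    fun i => (coeff_interpI_mem ratSub hr hHr i).2
  choose s hs using hs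
  choose c hc using hc
  have hsBD : ∀ i, s i ∈ BD := fun i => bounded_denominators (isForm_coeff_chrI hF i) _ (hs i)
  have hcBD : ∀ i, c i ∈ BD := fun i =>
    bounded_denominators (isForm_coeff_interpI hF hH i) _ (hc i)
  obtain ⟨H, hHd⟩ : ∃ H : PowerSeries ℤ, iQ (iZ H) = qExpansion 1 (Hfam N d) := by
    have h := isInt_Hfam N (by omega) d
    choose m hm using h
    refine ⟨PowerSeries.mk m, ?_⟩
    ext i
    rw [hm]
    simp
  obtain ⟨D, hDd⟩ : ∃ D : PowerSeries ℤ, iQ (iZ D) = qExpansion 1 (DH N d) := by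
    have h := isInt_DH hN d
    choose m hm using h
    refine ⟨PowerSeries.mk m, ?_⟩
    ext i
    rw [hm]
    simp
  have hBDZ : ∀ H : PowerSeries ℤ, iZ H ∈ BD := fun H =>
    ⟨1, one_ne_zero, fun i => ⟨H.coeff i, by simp⟩⟩
  refine BD_integral (n := n) s ?_ hsBD (v := iZ D) (hBDZ D) ?_ ?_ ?_
  · apply hiQ
    rw [hs, hn, chrI_coeff_card, qExpansion_one, map_one]
  · intro h0
    rw [h0, map_zero] at hDd
    exact qDH_ne_zero hN d hDd.symm
  · have h1 := mul_difI F (Hfam N) d
    have h2 : iZ D * x = ∑ i ∈ Finset.range n, c i * (iZ H) ^ i := by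
      apply hiQ
      rw [map_mul, hDd, hx, mul_comm, ← qE_mul (hF.mem_perSub d) (DH_mem_perSub d)]
      change qExpansion 1 (F d * difI (Hfam N) d) = _
      rw [h1, qE_sum _ fun i _ => mul_mem (isForm_coeff_interpI hF hH i).mem_perSub
        (pow_mem (hH.mem_perSub d) i), map_sum]
      refine Finset.sum_congr rfl fun i _ => ?_
      rw [qE_mul (isForm_coeff_interpI hF hH i).mem_perSub (pow_mem (hH.mem_perSub d) i),
        qE_pow (hH.mem_perSub d), map_mul, map_pow, hc, hHd]
    rw [h2]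
    exact sum_mem fun i _ => mul_mem (hcBD i) (pow_mem (hBDZ H) i)
  · apply hiQ
    rw [map_sum, map_zero]
    have h1 := chrI_relation F d
    have h2 := congrArg (qExpansion 1) h1
    rw [qExpansion_zero, qE_sum _ fun i _ => mul_mem (isForm_coeff_chrI hF i).mem_perSub
      (pow_mem (hF.mem_perSub d) i)] at h2
    rw [← h2]
    refine Finset.sum_congr rfl fun i _ => ?_
    rw [map_mul, map_pow, hs, hx, qE_mul (isForm_coeff_chrI hF i).mem_perSub
      (pow_mem (hF.mem_perSub d) i), qE_pow (hF.mem_perSub d)]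

/-- coefficient functionals of the diamond translates -/
def dcL (N : ℕ) [NeZero N] (k : ℤ) (d : (ZMod N)ˣ) (n : ℕ) : CuspForm (Gamma1 N) k →ₗ[ℂ] ℂ where
  toFun f := (qExpansion 1 (fam N k f d)).coeff n
  map_add' f g := by
    have h1 : fam N k ⇑(f + g) = fam N k f + fam N k g := by
      rw [FunLike.coe_add]; exact fam_add _ _
    rw [h1, Pi.add_apply, qE_add ((isFamForm_cusp f).mem_perSub d)
      ((isFamForm_cusp g).mem_perSub d), map_add]
  map_smul' c f := by
    have h1 : fam N k ⇑(c • f) = c • fam N k f := fam_smul c _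
    rw [h1, Pi.smul_apply, qE_smul ((isFamForm_cusp f).mem_perSub d)]
    rfl

theorem dcL_apply (d : (ZMod N)ˣ) (n : ℕ) (f : CuspForm (Gamma1 N) k) :
    dcL N k d n f = (qExpansion 1 (fam N k f d)).coeff n := rfl

theorem dcL_one (n : ℕ) (f : CuspForm (Gamma1 N) k) : dcL N k 1 n f = qCoeff f n := by
  rw [dcL_apply, fam_one']
  rfl

/-- Galois conjugates of cusp forms -/
theorem exists_conj_cusp' (hN : 3 ≤ N) (f : CuspForm (Gamma1 N) k) (σ : ℂ →+* ℂ) :
    ∃ f' : CuspForm (Gamma1 N) k, ∀ d n, dcL N k d n f' = σ (dcL N k d n f) := by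
  obtain ⟨F', h1, h2, h3⟩ := exists_conj_fam hN (isFamForm_cusp f) σ
  have h4 := h3 (IsFamCusp.of_cusp f)
  refine ⟨h4.toCusp 1, fun d n => ?_⟩
  rw [dcL_apply, dcL_apply]
  have h5 : fam N k ⇑(h4.toCusp 1) d = F' d := by
    rw [IsFamCusp.coe_toCusp]
    exact (h4.fam.eq_fam d).symm
  rw [h5, h2, PowerSeries.coeff_map]

theorem eq_of_coeffs {f g : CuspForm (Gamma1 N) k} (h : ∀ n, qCoeff f n = qCoeff g n) : f = g := by
  have hf := (isFamForm_cusp f).mem_perSub 1
  have hg := (isFamForm_cusp g).mem_perSub 1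
  rw [fam_one'] at hf hg
  exact DFunLike.coe_injective (eq_of_qCoeff hf hg h)

variable (N k) in
/-- the lattice of cusp forms all of whose diamond translates have integral coefficients -/
def lat : Submodule ℤ (CuspForm (Gamma1 N) k) where
  carrier := {f | ∀ d n, ∃ m : ℤ, dcL N k d n f = m}
  add_mem' := by
    intro f g hf hg d n
    obtain ⟨m, hm⟩ := hf d n
    obtain ⟨m', hm'⟩ := hg d n
    exact ⟨m + m', by rw [map_add, hm, hm']; push_cast; rfl⟩
  zero_mem' := fun d n => ⟨0, by rw [map_zero]; simp⟩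
  smul_mem' := by
    intro c f hf d n
    obtain ⟨m, hm⟩ := hf d n
    exact ⟨c * m, by rw [map_zsmul, hm]; simp⟩

theorem mem_lat {f : CuspForm (Gamma1 N) k} : f ∈ lat N k ↔ ∀ d n, ∃ m : ℤ, dcL N k d n f = m :=
  Iff.rfl

/-- **Integral structure.** -/
theorem span_lat (hN : 3 ≤ N) :
    Submodule.span ℂ (lat N k : Set (CuspForm (Gamma1 N) k)) = ⊤ := by
  have hfd := finiteDimensional_cusp (k := k) hN
  have h1 := span_rational (V := CuspForm (Gamma1 N) k) (fun n => dcL N k 1 n) (by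
      intro v hv
      apply eq_of_coeffs
      intro n
      rw [← dcL_one, hv n]
      exact ((dcL_one n (0 : CuspForm (Gamma1 N) k)).symm.trans (map_zero _)).symm) (by
      intro σ v
      obtain ⟨v', hv'⟩ := exists_conj_cusp' hN v σ
      exact ⟨v', fun n => hv' 1 n⟩)
  rw [eq_top_iff, ← h1, Submodule.span_le]
  intro v hv
  -- all diamond translates are rational
  have hrat : ∀ d n, ∃ r : ℚ, dcL N k d n v = r := by
    intro d n
    obtain ⟨r, hr⟩ := rational_of_fixed (dcL N k d n v) (by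
      intro σ
      obtain ⟨v', hv'⟩ := exists_conj_cusp' hN v σ
      have h2 : v' = v := by
        apply eq_of_coeffs
        intro n
        rw [← dcL_one, ← dcL_one, hv' 1 n]
        obtain ⟨r, hr⟩ := hv n
        rw [hr]
        exact map_ratCast σ r
      rw [← hv', h2])
    exact ⟨r, hr.symm⟩
  choose r hr using hrat
  have hx : ∀ d, iQ (PowerSeries.mk (r d)) = qExpansion 1 (fam N k v d) := by
    intro d
    ext n
    have := hr d n
    rw [dcL_apply] at this
    rw [this]
    simp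
  have hBD : ∀ d, PowerSeries.mk (r d) ∈ BD := fun d =>
    fam_bounded hN (isFamForm_cusp v)
      (fun d => ⟨(isFamForm_cusp v).mem_perSub d, _, hx d⟩) d _ (hx d)
  choose e he hem using hBD
  set E : ℤ := ∏ d, e d with hE
  have hE0 : E ≠ 0 := Finset.prod_ne_zero_iff.mpr fun d _ => he d
  have hEC : (E : ℂ) ≠ 0 := by exact_mod_cast hE0
  have hmem : (E : ℂ) • v ∈ lat N k := by
    intro d n
    obtain ⟨m, hm⟩ := hem d n
    obtain ⟨c, hc⟩ : e d ∣ E := Finset.dvd_prod_of_mem _ (Finset.mem_univ d)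
    refine ⟨c * m, ?_⟩
    rw [map_smul, hr d n, smul_eq_mul, hc]
    rw [PowerSeries.coeff_mk] at hm
    have hm' : ((e d : ℤ) : ℂ) * ((r d n : ℚ) : ℂ) = ((m : ℤ) : ℂ) := by exact_mod_cast hm
    push_cast
    rw [← hm']
    ring
  have h4 : v = (E : ℂ)⁻¹ • ((E : ℂ) • v) := by
    rw [smul_smul, inv_mul_cancel₀ hEC, one_smul]
  rw [SetLike.mem_coe, h4]
  exact Submodule.smul_mem _ _ (Submodule.subset_span hmem)

end

end Fermat.Agent.WOneB
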